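import Fermat.Agent.A2.Mod.H13.S1
import Fermat.Agent.A2.Mod.H485.Kron
import Fermat.Agent.A2.Mod.H553.VzeroNe
import Fermat.Agent.A2.Mod.H553.Fricke
import Fermat.Agent.A2.Mod.H31.Deg
import Fermat.Agent.A2.Mod.H753.IndZero
import Fermat.Agent.S18.MOD.H396.SepLaurent
import Fermat.Agent.A2.H553.GaussA
import Fermat.Agent.A2.H408.SepFrame

/-!
# WALL A2 / MODASM — sub-assembly S4 (helper408): the separating coordinate `x = j · j_q`

    theorem s4 : S4Statement P E M q w          (`Fermat/Agent/A2/Mod/Asm.lean`, VERBATIM)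
    theorem s4_of_s1 : S1Statement P E M q w → DegStatement E M q → S4Statement P E M q w

`SepCoord (RE P E) E y (chartAlg y)` for `y = x` and `y = x⁻¹`: there is an `E(y)`-basis of `F_N`
in the chart whose discriminant is a polynomial in `y` over `R_E` which is nonzero modulo `w`.

Proof.  S1 gives the two components `p∞ = B ∩ w V∞`, `p₀ = B ∩ w V₀` (`V₀ = V∞ ∘ W`) with
`p∞ ⊓ p₀ = w B`.  `redV : V∞ → k((t))` is the reduction of `t`-expansions (`H553.redA`); it kills
`w V∞` (L2) and `d/dt (redV x) ≠ 0`, `d/dt (redV (W x)) ≠ 0` because `x`, `W x` are integer series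
with lowest terms `t^{-(q+1)}`, `t^{-M(q+1)}` (`H13.isPolar_xE`, `isPolar_fricke_xE`) and
`q ∤ M (q + 1)`.  Hence both components are generically étale over the `y`-line
(`H408.sepCoord_of_reductions`: `H396.exists_bivariate_separable` + `exists_basis_discr_not_dvd`).
The hypotheses `GoodRedAt` of `S4Statement` are not used.
-/

set_option autoImplicit false
set_option linter.unusedSectionVars false
set_option linter.style.haveILetI false
set_option synthInstance.maxHeartbeats 400000
set_option maxHeartbeats 1600000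

noncomputable section

namespace Fermat.Agent.A2.Mod.H408

open ModularCurve HahnSeries Polynomial IntermediateField
open Fermat.Agent.A2 Fermat.Agent.A2.Mod

/-! ### The reduction map of `V∞` -/

section Red

variable {P : ValuationSubring Qb} {E : IntermediateField ℚ Qb} {N : ℕ}

local notation "kE" => IsLocalRing.ResidueField (RE P E)

/-- elements of `V∞` lie in the big Gauss ring of `E((t))`. -/
theorem coe_mem_gaussA {V : ValuationSubring (FE E N)} (hV : IsVinf P E N V) {f : FE E N}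
    (hf : f ∈ V) : (f : LaurentSeries E) ∈ Fermat.Agent.A2.H553.gaussA (RE P E) := by
  obtain ⟨U₁, U₂, h₂, -, he⟩ := (hV f).mp hf
  exact ⟨U₁, U₂, h₂, he⟩

/-- The reduction `V∞ → k((t))`. -/
def redV {V : ValuationSubring (FE E N)} (hV : IsVinf P E N V) : V →+* LaurentSeries kE :=
  (Fermat.Agent.A2.H553.redA (RE P E)).comp
    ((((FE E N).val : FE E N →+* LaurentSeries E).comp V.subtype).codRestrict
      (Fermat.Agent.A2.H553.gaussA (RE P E)) (fun s => coe_mem_gaussA hV s.2))

theorem redV_eq {V : ValuationSubring (FE E N)} (hV : IsVinf P E N V) (s : V)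
    (a : LaurentSeries (RE P E))
    (h : (((s : FE E N)) : LaurentSeries E) = H708.incl (RE P E) a) :
    redV hV s = H708.red (RE P E) a := by
  have h1 := Fermat.Agent.A2.H553.redA_eq (A := RE P E)
    ⟨(((s : FE E N)) : LaurentSeries E), coe_mem_gaussA hV s.2⟩ a 1
    (by rw [map_one]; exact one_ne_zero) (by rw [map_one, mul_one]; exact h)
  rw [map_one, div_one] at h1
  exact h1

theorem redV_of_int {V : ValuationSubring (FE E N)} (hV : IsVinf P E N V) (s : V)
    (g : LaurentSeries ℤ)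
    (h : (((s : FE E N)) : LaurentSeries E) = coeffEmb E (H708.castQ g)) (n : ℤ) :
    (redV hV s).coeff n = ((g.coeff n : ℤ) : kE) := by
  rw [redV_eq hV s (H708.castA (RE P E) g)
    (by rw [h]; exact Fermat.Agent.A2.Mod.H553.coeffEmb_castQ (P := P) g)]
  show IsLocalRing.residue (RE P E) (((g.coeff n : ℤ) : RE P E)) = _
  rw [map_intCast]

theorem redV_const {V : ValuationSubring (FE E N)} (hV : IsVinf P E N V) (s : V) (r : RE P E)
    (h : (s : FE E N) = algebraMap (RE P E) (FE E N) r) :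
    redV hV s = algebraMap kE (LaurentSeries kE) (IsLocalRing.residue (RE P E) r) := by
  rw [redV_eq hV s (HahnSeries.C r)]
  · rw [Fermat.Agent.S24.H84.laurent_algebraMap_eq_C]
    ext n
    show IsLocalRing.residue (RE P E) ((HahnSeries.C r : LaurentSeries (RE P E)).coeff n) = _
    rw [HahnSeries.C_apply, HahnSeries.C_apply, HahnSeries.coeff_single,
      HahnSeries.coeff_single]
    split_ifs
    · rfl
    · exact map_zero _
  · rw [h]
    have h1 : (((algebraMap (RE P E) (FE E N) r : FE E N)) : LaurentSeries E) =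
        algebraMap E (LaurentSeries E) (r : E) := rfl
    rw [h1, Fermat.Agent.S24.H84.laurent_algebraMap_eq_C]
    apply HahnSeries.ext
    funext n
    show (HahnSeries.C (r : E) : LaurentSeries E).coeff n =
      (((HahnSeries.C r : LaurentSeries (RE P E)).coeff n : RE P E) : E)
    rw [HahnSeries.C_apply, HahnSeries.C_apply, HahnSeries.coeff_single,
      HahnSeries.coeff_single]
    split_ifs
    · rfl
    · rfl

/-- the reduction kills the maximal ideal. -/
theorem redV_eq_zero_of_mem_nonunits [IsDiscreteValuationRing (RE P E)]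
    {V : ValuationSubring (FE E N)} (hV : IsVinf P E N V)
    {w : RE P E} (hw : Irreducible w) (hu : H48.IsUnif V (cE P E N w)) (s : V)
    (hs : (s : FE E N) ∈ V.nonunits) : redV hV s = 0 := by
  have h1 : InW P E N V w (s : FE E N) := (H13.inW_iff_mem_nonunits hu _).mpr hs
  have hw0 : cE P E N w ≠ 0 := by
    intro h0
    apply hw.ne_zero
    have h2 : algebraMap E (FE E N) (w : E) = 0 := h0
    rw [map_eq_zero] at h2
    exact Subtype.ext h2
  have h2 : s = ⟨(s : FE E N) * (cE P E N w)⁻¹, h1⟩ * ⟨cE P E N w, hu.mem⟩ := by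
    apply Subtype.ext
    show (s : FE E N) = (s : FE E N) * (cE P E N w)⁻¹ * cE P E N w
    rw [inv_mul_cancel_right₀ hw0]
  have h3 : redV hV ⟨cE P E N w, hu.mem⟩ = 0 := by
    rw [redV_const hV _ w rfl]
    have : IsLocalRing.residue (RE P E) w = 0 := by
      rw [IsLocalRing.residue_eq_zero_iff]
      exact (IsLocalRing.mem_maximalIdeal w).mpr hw.not_isUnit
    rw [this, map_zero]
  rw [h2, map_mul, h3, mul_zero]

/-- polar elements have nonzero derivative modulo `w` when the pole order is prime to the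
residue characteristic. -/
theorem laurentDer_redV_ne_zero {V : ValuationSubring (FE E N)} (hV : IsVinf P E N V) (s : V)
    {a : ℕ} (hpol : H13.IsPolar E N (s : FE E N) a) (ha : ((a : ℕ) : kE) ≠ 0) :
    Fermat.Agent.S18.MOD.H396.laurentDer kE (redV hV s) ≠ 0 := by
  obtain ⟨g, hg, e⟩ := hpol
  intro h0
  have h1 := congrArg (fun z : LaurentSeries kE => z.coeff (-(a : ℤ) - 1)) h0
  simp only [Fermat.Agent.S18.MOD.H396.laurentDer_apply, Fermat.Agent.S24.H84.laurentD_coeff,
    HahnSeries.coeff_zero] at h1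
  rw [show (-(a : ℤ) - 1 + 1) = -(a : ℤ) by ring, redV_of_int hV s g e, hg.2] at h1
  apply ha
  simpa using h1

theorem derivation_ne_zero_of_mul_eq_one {k K : Type*} [Field k] [Field K] [Algebra k K]
    (D : Derivation k K K) {a b : K} (hab : a * b = 1) (hb : D b ≠ 0) : D a ≠ 0 := by
  intro h0
  have h1 : b * a = 1 := by rw [mul_comm]; exact hab
  have h2 := D.leibniz_of_mul_eq_one h1
  rw [h0, smul_zero] at h2
  exact hb h2

theorem laurentDer_ne_zero_of_mul_eq_one {κ : Type*} [Field κ] {a b : LaurentSeries κ}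
    (hab : a * b = 1) (hb : Fermat.Agent.S18.MOD.H396.laurentDer κ b ≠ 0) :
    Fermat.Agent.S18.MOD.H396.laurentDer κ a ≠ 0 :=
  derivation_ne_zero_of_mul_eq_one (Fermat.Agent.S18.MOD.H396.laurentDer κ) hab hb

/-- The restriction `V₀ = V∞ ∘ W → V∞` of an automorphism `W`. -/
def comapHom (V : ValuationSubring (FE E N)) (W : FE E N ≃ₐ[E] FE E N) :
    (V.comap (W : FE E N →+* FE E N)) →+* V where
  toFun s := ⟨W (s : FE E N), s.2⟩
  map_one' := Subtype.ext (map_one W)
  map_mul' _ _ := Subtype.ext (map_mul W _ _)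
  map_zero' := Subtype.ext (map_zero W)
  map_add' _ _ := Subtype.ext (map_add W _ _)

theorem coe_comapHom (V : ValuationSubring (FE E N)) (W : FE E N ≃ₐ[E] FE E N)
    (s : V.comap (W : FE E N →+* FE E N)) : ((comapHom V W s : V) : FE E N) = W (s : FE E N) :=
  rfl

/-- **`SepCoord` for one chart** of `F_N` with respect to `V∞` and `V₀ = V∞ ∘ W`. -/
theorem sepCoord_chart [IsDiscreteValuationRing (RE P E)] [PerfectField kE]
    {V : ValuationSubring (FE E N)} (hV : IsVinf P E N V) (W : FE E N ≃ₐ[E] FE E N)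
    {w : RE P E} (hw : Irreducible w) (hu : H48.IsUnif V (cE P E N w))
    {y : FE E N} (hy : Transcendental E y)
    (hfin : FiniteDimensional (IntermediateField.adjoin E ({y} : Set (FE E N))) (FE E N))
    (hG₁ : H489.IsGaussOver (RE P E) V y)
    (hG₂ : H489.IsGaussOver (RE P E) (V.comap (W : FE E N →+* FE E N)) y)
    (hD₁ : Fermat.Agent.S18.MOD.H396.laurentDer kE (redV hV ⟨y, hG₁.mem⟩) ≠ 0)
    (hD₂ : Fermat.Agent.S18.MOD.H396.laurentDer kE (redV hV ⟨W y, hG₂.mem⟩) ≠ 0)
    (p₁ p₂ : Ideal (chartAlg P E N y))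
    (hc₁ : IsCut P E N w V (chartAlg P E N y) p₁)
    (hc₂ : IsCut P E N w (V.comap (W : FE E N →+* FE E N)) (chartAlg P E N y) p₂)
    (hp₁ : p₁.IsPrime) (hp₂ : p₂.IsPrime) (hne : p₁ ≠ p₂)
    (hinf : p₁ ⊓ p₂ = Ideal.span {algebraMap (RE P E) (chartAlg P E N y) w}) :
    SepCoord (RE P E) E y (chartAlg P E N y) := by
  have hu₂ := H13.isUnif_comap hu W
  refine Fermat.Agent.A2.H408.sepCoord_of_reductions (R := RE P E) (E := E) (F := FE E N)
    hw hy hfin (chartAlg P E N y) (fun _ => Iff.rfl) p₁ p₂ hp₁ hp₂ hne hinf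
    V (V.comap (W : FE E N →+* FE E N))
    (fun b => (hc₁ b).trans (H13.inW_iff_mem_nonunits hu _))
    (fun b => (hc₂ b).trans (H13.inW_iff_mem_nonunits hu₂ _))
    hG₁.isOver.mem hG₂.isOver.mem hG₁.mem hG₂.mem
    (fun d hd => (H489.C_dvd_iff_map_residue_eq_zero hw d).mpr (hG₁.prim d hd))
    (fun d hd => (H489.C_dvd_iff_map_residue_eq_zero hw d).mpr (hG₂.prim d hd))
    (Fermat.Agent.S18.MOD.H396.laurentDer kE) (Fermat.Agent.S18.MOD.H396.laurentDer kE)
    (redV hV) ((redV hV).comp (comapHom V W)) ?_ ?_ ?_ ?_ hD₁ hD₂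
  · intro r
    exact redV_const hV _ r rfl
  · intro r
    refine redV_const hV _ r ?_
    show W (algebraMap (RE P E) (FE E N) r) = algebraMap (RE P E) (FE E N) r
    exact W.commutes (r : E)
  · intro f hf
    exact redV_eq_zero_of_mem_nonunits hV hw hu f hf
  · intro f hf
    refine redV_eq_zero_of_mem_nonunits hV hw hu _ ?_
    exact (H13.mem_nonunits_comap V (W : FE E N →+* FE E N) _).mp hf

end Red

/-! ### S4 -/

section S4

variable {P : ValuationSubring Qb} {E : IntermediateField ℚ Qb} {M q : ℕ} [NeZero M] [NeZero q]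
  {w : RE P E}

local notation "kE" => IsLocalRing.ResidueField (RE P E)

/-- **S4 from S1 and L8** (L1, L2, L3, L4 are used from main). -/
theorem s4_of_s1 (hS1 : S1Statement P E M q w) (hL8 : DegStatement E M q) :
    S4Statement P E M q w := by
  intro hS _ _ _ _
  haveI := hS.dvr
  haveI : Fact q.Prime := ⟨hS.q_prime⟩
  haveI : PerfectField kE := H485.perfectField_residue P E hS.lies_over
  haveI : CharP kE q := H485.charP_residue P E hS.lies_over
  obtain ⟨V, hV⟩ := Fermat.Agent.A2.Mod.H553.vinfExists P E (M * q) (NeZero.ne _) hS.dvr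
  obtain ⟨W, hW⟩ := Fermat.Agent.A2.Mod.H553.frickeExists E (M * q) (NeZero.ne _)
  obtain ⟨htr, hfr, -⟩ := hL8 hS.q_prime hS.q_not_dvd
  have hu : H48.IsUnif V (cE P E (M * q) w) :=
    (Fermat.Agent.A2.Mod.H553.vinfBasic P E w (M * q) (NeZero.ne _) hS.dvr hS.unif V hV).1
  have hG₁ := H13.isGaussOver_xE hS.unif hV htr
  have hG₂ := H13.isGaussOver_comap_xE hS.unif hV hW htr
  have hpos : 0 < Module.finrank (IntermediateField.adjoin E ({xE E M q} : Set (FE E (M * q))))
      (FE E (M * q)) := by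
    rw [hfr]
    have h1 := dedekindPsi_pos_of_ne_zero M (NeZero.ne M)
    positivity
  have hfin : FiniteDimensional (IntermediateField.adjoin E ({xE E M q} : Set (FE E (M * q))))
      (FE E (M * q)) := Module.finite_of_finrank_pos hpos
  -- the two derivatives
  have hq0 : ((q : ℕ) : kE) = 0 := CharP.cast_eq_zero kE q
  have hM0 : ((M : ℕ) : kE) ≠ 0 := by
    intro h0
    exact hS.q_not_dvd ((CharP.cast_eq_zero_iff kE q M).mp h0)
  have hD₁ : Fermat.Agent.S18.MOD.H396.laurentDer kE (redV hV ⟨xE E M q, hG₁.mem⟩) ≠ 0 := by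
    refine laurentDer_redV_ne_zero hV _ (H13.isPolar_xE M q) ?_
    rw [Nat.cast_add, Nat.cast_one, hq0, add_zero]
    exact one_ne_zero
  have hD₂ : Fermat.Agent.S18.MOD.H396.laurentDer kE (redV hV ⟨W (xE E M q), hG₂.mem⟩) ≠ 0 := by
    refine laurentDer_redV_ne_zero hV _ (H13.isPolar_fricke_xE M q hW) ?_
    rw [Nat.cast_add, Nat.cast_mul, hq0, mul_zero, zero_add]
    exact hM0
  constructor
  · obtain ⟨p₁, p₂, hc₁, hc₂, hp₁, hp₂, h₁₂, -, hinf⟩ :=
      hS1 hS V W hV hW (xE E M q) (Or.inl rfl)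
    exact sepCoord_chart hV W hS.unif hu htr hfin hG₁ hG₂ hD₁ hD₂ p₁ p₂ hc₁ hc₂ hp₁ hp₂
      (fun h => h₁₂ (h ▸ le_refl p₁)) hinf
  · obtain ⟨p₁, p₂, hc₁, hc₂, hp₁, hp₂, h₁₂, -, hinf⟩ :=
      hS1 hS V W hV hW (xE E M q)⁻¹ (Or.inr rfl)
    have hx0 : xE E M q ≠ 0 := hG₁.ne_zero
    have htr' : Transcendental E (xE E M q)⁻¹ := by
      intro h
      apply htr
      have := h.inv
      rwa [inv_inv] at this
    have hE : IntermediateField.adjoin E ({(xE E M q)⁻¹} : Set (FE E (M * q))) =
        IntermediateField.adjoin E ({xE E M q} : Set (FE E (M * q))) :=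
      H489.adjoin_inv_eq E (xE E M q)
    have key : ∀ (K : IntermediateField E (FE E (M * q))),
        K = IntermediateField.adjoin E ({xE E M q} : Set (FE E (M * q))) →
        FiniteDimensional K (FE E (M * q)) := by
      rintro K rfl
      exact hfin
    have hfin' := key _ hE
    have hD₁' : Fermat.Agent.S18.MOD.H396.laurentDer kE
        (redV hV ⟨(xE E M q)⁻¹, hG₁.inv.mem⟩) ≠ 0 := by
      refine laurentDer_ne_zero_of_mul_eq_one ?_ hD₁
      rw [← map_mul]
      have : (⟨(xE E M q)⁻¹, hG₁.inv.mem⟩ : V) * ⟨xE E M q, hG₁.mem⟩ = 1 :=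
        Subtype.ext (inv_mul_cancel₀ hx0)
      rw [this, map_one]
    have hD₂' : Fermat.Agent.S18.MOD.H396.laurentDer kE
        (redV hV ⟨W (xE E M q)⁻¹, hG₂.inv.mem⟩) ≠ 0 := by
      refine laurentDer_ne_zero_of_mul_eq_one ?_ hD₂
      rw [← map_mul]
      have : (⟨W (xE E M q)⁻¹, hG₂.inv.mem⟩ : V) * ⟨W (xE E M q), hG₂.mem⟩ = 1 := by
        apply Subtype.ext
        show W (xE E M q)⁻¹ * W (xE E M q) = 1
        rw [← map_mul, inv_mul_cancel₀ hx0, map_one]
      rw [this, map_one]
    exact sepCoord_chart hV W hS.unif hu htr' hfin' hG₁.inv hG₂.inv hD₁' hD₂' p₁ p₂ hc₁ hc₂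
      hp₁ hp₂ (fun h => h₁₂ (h ▸ le_refl p₁)) hinf

/-- **S4** (unconditional: all leaves are on main). -/
theorem s4 (P : ValuationSubring Qb) (E : IntermediateField ℚ Qb) (M q : ℕ) [NeZero M]
    [NeZero q] (w : RE P E) : S4Statement P E M q w :=
  s4_of_s1
    (H13.s1 (Fermat.Agent.A2.Mod.H553.vzeroNe P E M q w) (Fermat.Agent.A2.Mod.H31.deg E M q)
      (Fermat.Agent.A2.Mod.H753.indInf P E M q w) (Fermat.Agent.A2.Mod.H753.indZero P E M q w))
    (Fermat.Agent.A2.Mod.H31.deg E M q)

end S4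

end Fermat.Agent.A2.Mod.H408
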